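import Mathlib
import Fermat.Prelude.Def_FormalHecke_Eigensystem

set_option autoImplicit false

namespace Fermat.Agent.S49

variable {R : Type*} [CommRing R]

theorem isRecursive_of_isEigensystem {e a : ℕ → R} (h : FormalHecke.IsEigensystem e a) :
    FormalHecke.IsRecursive e a := by
  obtain ⟨h1, hrel⟩ := h
  refine ⟨h1, ?_, ?_⟩
  · intro m
    induction m using Nat.strong_induction_on with
    | _ m ih =>
      intro n hmn
      rcases Nat.eq_zero_or_pos m with rfl | hmpos
      · have hn : n = 1 := by simpa using hmn
        subst hn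
        simp [h1]
      rcases Nat.lt_or_ge 1 m with hm1 | hm1
      · -- `m > 1`
        have hmne : m ≠ 1 := by omega
        set ℓ := m.minFac with hℓdef
        have hℓ : ℓ.Prime := Nat.minFac_prime hmne
        obtain ⟨m', hm'⟩ : ℓ ∣ m := Nat.minFac_dvd m
        have hm'pos : 0 < m' := by
          rcases Nat.eq_zero_or_pos m' with h0 | h0
          · rw [h0] at hm'; omega
          · exact h0
        have hm'lt : m' < m := by
          rw [hm']
          have := hℓ.two_le
          nlinarith
        have hcop' : m'.Coprime n := Nat.Coprime.coprime_dvd_left ⟨ℓ, by rw [hm', mul_comm]⟩ hmn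
        have hℓn : ¬ ℓ ∣ n := by
          intro hd
          have : ℓ ∣ Nat.gcd m n := Nat.dvd_gcd (Nat.minFac_dvd m) hd
          rw [hmn] at this
          exact hℓ.one_lt.ne' (Nat.dvd_one.mp this)
        have r1 := hrel ℓ hℓ (m' * n)
        have r2 := hrel ℓ hℓ m'
        have e1 : a (m * n) = a (ℓ * (m' * n)) := by rw [hm', mul_assoc]
        have e2 : a m = a (ℓ * m') := by rw [← hm']
        by_cases hd : ℓ ∣ m'
        · obtain ⟨m'', hm''⟩ := hd
          have hd1 : ℓ ∣ m' * n := Dvd.dvd.mul_right ⟨m'', hm''⟩ n
          have hd2 : ℓ ∣ m' := ⟨m'', hm''⟩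
          have q1 : m' * n / ℓ = m'' * n := by
            rw [hm'', mul_assoc]
            exact Nat.mul_div_cancel_left _ hℓ.pos
          have q2 : m' / ℓ = m'' := by
            rw [hm'']
            exact Nat.mul_div_cancel_left _ hℓ.pos
          have hm''lt : m'' < m := by
            have : m'' ≤ m' := by
              rw [hm'']
              exact Nat.le_mul_of_pos_left _ hℓ.pos
            omega
          have hcop'' : m''.Coprime n :=
            Nat.Coprime.coprime_dvd_left ⟨ℓ, by rw [hm'', mul_comm]⟩ hcop'
          rw [if_pos hd1, q1, ih m' hm'lt n hcop', ih m'' hm''lt n hcop''] at r1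
          rw [if_pos hd2, q2] at r2
          rw [e1, e2]
          linear_combination r1 - a n * r2
        · have hd1 : ¬ ℓ ∣ m' * n := by
            intro hdd
            rcases (Nat.Prime.dvd_mul hℓ).mp hdd with h' | h'
            · exact hd h'
            · exact hℓn h'
          rw [if_neg hd1, ih m' hm'lt n hcop'] at r1
          rw [if_neg hd] at r2
          rw [e1, e2]
          linear_combination r1 - a n * r2
      · have : m = 1 := by omega
        subst this
        simp [h1]
  · intro ℓ r hℓ
    have r1 := hrel ℓ hℓ (ℓ ^ (r + 1))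
    have hd : ℓ ∣ ℓ ^ (r + 1) := dvd_pow_self ℓ (Nat.succ_ne_zero r)
    have q : ℓ ^ (r + 1) / ℓ = ℓ ^ r := by
      rw [pow_succ]
      exact Nat.mul_div_cancel _ hℓ.pos
    have e1 : ℓ * ℓ ^ (r + 1) = ℓ ^ (r + 2) := by ring
    rw [if_pos hd, q, e1] at r1
    linear_combination r1

end Fermat.Agent.S49
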