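import Mathlib
import Fermat.Agent.S49.QCoeff
import Fermat.Agent.S49.Formal

set_option autoImplicit false

namespace Fermat.Agent.S49

open ModularFormClass CongruenceSubgroup UpperHalfPlane

variable {N : ℕ}

/-- A common eigenvector of all the Hecke operators can be normalised to a normalised eigenform. -/
theorem exists_normalizedEigenform_of_eigenvector [NeZero N] (g : CuspForm (Gamma0 N) 2)
    (hg : g ≠ 0) (μ : ℕ → ℂ)
    (hT : ∀ (ℓ : ℕ) (hℓ : ℓ.Prime) (hℓN : ¬ ℓ ∣ N), CuspForm.heckeTLin 2 hℓ hℓN g = μ ℓ • g)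
    (hU : ∀ (ℓ : ℕ) (_ : ℓ.Prime) (hℓN : ℓ ∣ N), CuspForm.heckeULin 2 hℓN g = μ ℓ • g) :
    ∃ f : CuspForm (Gamma0 N) 2, f.IsNormalizedEigenform ∧ ∀ ℓ : ℕ, ℓ.Prime → qCoeff f ℓ = μ ℓ := by
  set e : ℕ → ℂ := fun ℓ => if ℓ ∣ N then 0 else (ℓ : ℂ) with he
  -- the basic relation
  have hrel : ∀ ℓ : ℕ, ℓ.Prime → ∀ n : ℕ,
      qCoeff g (ℓ * n) + e ℓ * (if ℓ ∣ n then qCoeff g (n / ℓ) else 0) = μ ℓ * qCoeff g n := by
    intro ℓ hℓ n
    by_cases hℓN : ℓ ∣ N
    · have h1 := qCoeff_heckeULin hℓ.ne_zero hℓN g n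
      rw [hU ℓ hℓ hℓN, qCoeff_smul] at h1
      simp only [he, if_pos hℓN, zero_mul, add_zero]
      rw [h1, mul_comm]
    · have h1 := qCoeff_heckeTLin hℓ hℓN g n
      rw [hT ℓ hℓ hℓN, qCoeff_smul] at h1
      simp only [he, if_neg hℓN]
      rw [h1, mul_comm ℓ n]
      by_cases hd : ℓ ∣ n
      · simp only [if_pos hd]
        norm_num
      · simp only [if_neg hd, mul_zero]
  -- the first coefficient does not vanish
  have h1 : qCoeff g 1 ≠ 0 := by
    intro h0
    apply hg
    apply eq_zero_of_qCoeff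
    intro n
    induction n using Nat.strong_induction_on with
    | _ n ih =>
      rcases Nat.eq_zero_or_pos n with rfl | hnpos
      · exact qCoeff_zero_index g
      rcases Nat.lt_or_ge 1 n with hn1 | hn1
      · have hnne : n ≠ 1 := by omega
        have hℓ : n.minFac.Prime := Nat.minFac_prime hnne
        obtain ⟨m, hm⟩ : n.minFac ∣ n := Nat.minFac_dvd n
        have hmpos : 0 < m := by
          rcases Nat.eq_zero_or_pos m with h0' | h0'
          · rw [h0'] at hm; omega
          · exact h0'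
        have hmlt : m < n := by
          have h2 := hℓ.two_le
          calc m < n.minFac * m := by nlinarith
            _ = n := hm.symm
        have hdivlt : m / n.minFac < n := lt_of_le_of_lt (Nat.div_le_self _ _) hmlt
        have r := hrel n.minFac hℓ m
        rw [← hm, ih m hmlt, ih _ hdivlt] at r
        simpa using r
      · have : n = 1 := by omega
        rw [this]; exact h0
  set f : CuspForm (Gamma0 N) 2 := (qCoeff g 1)⁻¹ • g with hf
  have hfc : ∀ n, qCoeff f n = (qCoeff g 1)⁻¹ * qCoeff g n := fun n => qCoeff_smul _ g n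
  have hf1 : qCoeff f 1 = 1 := by rw [hfc, inv_mul_cancel₀ h1]
  have hfℓ : ∀ ℓ : ℕ, ℓ.Prime → qCoeff f ℓ = μ ℓ := by
    intro ℓ hℓ
    have r := hrel ℓ hℓ 1
    have hd : ¬ ℓ ∣ 1 := fun h => hℓ.one_lt.ne' (Nat.dvd_one.mp h)
    rw [if_neg hd, mul_zero, add_zero, mul_one] at r
    rw [hfc, r]
    field_simp
  have heig : FormalHecke.IsEigensystem e (fun n => qCoeff f n) := by
    refine ⟨hf1, fun ℓ hℓ n => ?_⟩
    have r := hrel ℓ hℓ n
    simp only [hfℓ ℓ hℓ]
    rw [hfc, hfc, hfc]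
    by_cases hd : ℓ ∣ n
    · simp only [if_pos hd] at r ⊢
      linear_combination (qCoeff g 1)⁻¹ * r
    · simp only [if_neg hd] at r ⊢
      linear_combination (qCoeff g 1)⁻¹ * r
  obtain ⟨-, hmul, hpow⟩ := isRecursive_of_isEigensystem heig
  refine ⟨f, ⟨hf1, hmul, ?_, ?_⟩, hfℓ⟩
  · intro p r hp hpN
    have := hpow p r hp
    simpa only [he, if_neg hpN] using this
  · intro p r hp hpN
    have := hpow p r hp
    simpa only [he, if_pos hpN, zero_mul, sub_zero] using this

end Fermat.Agent.S49
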