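import Mathlib

set_option autoImplicit false

namespace Fermat.Agent.S49

open Module

theorem isIntegral_of_hasEigenvalue {V : Type*} [AddCommGroup V] [Module ℂ V]
    [FiniteDimensional ℂ V] (L : Submodule ℤ V) (hfg : L.FG)
    (hspan : Submodule.span ℂ (L : Set V) = ⊤)
    (T : Module.End ℂ V) (hT : ∀ v ∈ L, T v ∈ L) {μ : ℂ} (hμ : T.HasEigenvalue μ) :
    IsIntegral ℤ μ := by
  set D : Module.End ℂ V := T - μ • (1 : Module.End ℂ V) with hD
  have hDapp : ∀ v, D v = T v - μ • v := by
    intro v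
    simp [hD]
  -- `D` is not injective, hence not surjective
  have hrange : LinearMap.range D ≠ ⊤ := by
    intro htop
    have hsurj : Function.Surjective D := LinearMap.range_eq_top.mp htop
    have hinj : Function.Injective D := LinearMap.injective_iff_surjective.mpr hsurj
    obtain ⟨w, hw⟩ := hμ.exists_hasEigenvector
    apply hw.2
    apply hinj
    rw [map_zero, hDapp, hw.apply_eq_smul, sub_self]
  let Q := V ⧸ LinearMap.range D
  let π : V →ₗ[ℂ] Q := (LinearMap.range D).mkQ
  let Nn : Submodule ℤ Q := L.map (π.restrictScalars ℤ)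
  have hNfg : Nn.FG := hfg.map _
  have hN0 : Nn ≠ ⊥ := by
    intro h0
    apply hrange
    rw [eq_top_iff, ← hspan, Submodule.span_le]
    intro v hv
    have h1 : π v ∈ Nn := ⟨v, hv, rfl⟩
    rw [h0] at h1
    have h2 : π v = 0 := by simpa using h1
    exact (Submodule.Quotient.mk_eq_zero _).mp h2
  refine isIntegral_of_smul_mem_submodule (M := Q) Nn hN0 hNfg μ ?_
  rintro _ ⟨v, hv, rfl⟩
  refine ⟨T v, hT v hv, ?_⟩
  change π (T v) = μ • π v
  rw [← map_smul, ← sub_eq_zero, ← map_sub, ← hDapp]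
  exact (Submodule.Quotient.mk_eq_zero _).mpr ⟨v, rfl⟩

end Fermat.Agent.S49
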