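import Mathlib
import Fermat.Prelude.Def_CuspForm_IntegralLattice
import Fermat.Prelude.Def_CuspForm_IntegralStructure
import Fermat.Prelude.Def_CuspForm_HeckeAlgebra
import Fermat.Prelude.Thm_CuspForm_intLattice_fg
import Fermat.Prelude.Thm_CuspForm_mem_intLattice_of_coe_eq_heckeT
import Fermat.Prelude.Thm_CuspForm_mem_intLattice_of_coe_eq_heckeU
import Fermat.Agent.S49.QCoeff
import Fermat.Agent.S49.Integral

set_option autoImplicit false

namespace Fermat.Agent.S49

open ModularFormClass CongruenceSubgroup UpperHalfPlane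

variable {N : ℕ}

theorem qIntegralSet_subset_intLattice :
    CuspForm.qIntegralSet N ⊆ (CuspForm.intLattice N 2 : Set (CuspForm (Gamma0 N) 2)) := by
  intro f hf
  apply Submodule.subset_span
  intro n
  obtain ⟨m, hm⟩ := Subring.mem_bot.mp (hf n)
  exact ⟨m, hm.symm⟩

theorem span_intLattice_eq_top (h : CuspForm.HasIntegralBasis N) :
    Submodule.span ℂ (CuspForm.intLattice N 2 : Set (CuspForm (Gamma0 N) 2)) = ⊤ := by
  rw [eq_top_iff, ← h]
  exact Submodule.span_mono qIntegralSet_subset_intLattice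

theorem finiteDimensional_of_hasIntegralBasis [NeZero N] (h : CuspForm.HasIntegralBasis N) :
    FiniteDimensional ℂ (CuspForm (Gamma0 N) 2) := by
  obtain ⟨S, hS⟩ := CuspForm.intLattice_fg N 2
  refine ⟨⟨S, ?_⟩⟩
  rw [eq_top_iff, ← span_intLattice_eq_top h, Submodule.span_le, ← hS]
  exact Submodule.span_subset_span ℤ ℂ _

theorem isIntegral_eigenvalue_heckeTLin [NeZero N] (h : CuspForm.HasIntegralBasis N)
    {p : ℕ} (hp : p.Prime) (hpN : ¬ p ∣ N) {μ : ℂ}
    (hμ : Module.End.HasEigenvalue (CuspForm.heckeTLin 2 hp hpN : Module.End ℂ (CuspForm (Gamma0 N) 2)) μ) :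
    IsIntegral ℤ μ := by
  haveI := finiteDimensional_of_hasIntegralBasis h
  refine isIntegral_of_hasEigenvalue (CuspForm.intLattice N 2) (CuspForm.intLattice_fg N 2)
    (span_intLattice_eq_top h) _ ?_ hμ
  intro v hv
  exact CuspForm.mem_intLattice_of_coe_eq_heckeT (by norm_num) hp.ne_zero
    (CuspForm.coe_heckeTLin_apply 2 hp hpN v) hv

theorem isIntegral_eigenvalue_heckeULin [NeZero N] (h : CuspForm.HasIntegralBasis N)
    {p : ℕ} (hp : p.Prime) (hpN : p ∣ N) {μ : ℂ}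
    (hμ : Module.End.HasEigenvalue (CuspForm.heckeULin 2 hpN : Module.End ℂ (CuspForm (Gamma0 N) 2)) μ) :
    IsIntegral ℤ μ := by
  haveI := finiteDimensional_of_hasIntegralBasis h
  refine isIntegral_of_hasEigenvalue (CuspForm.intLattice N 2) (CuspForm.intLattice_fg N 2)
    (span_intLattice_eq_top h) _ ?_ hμ
  intro v hv
  exact CuspForm.mem_intLattice_of_coe_eq_heckeU hp.ne_zero
    (CuspForm.coe_heckeULin_apply 2 hpN v) hv

/-- The algebra generated over the ring of algebraic integers by all Hecke operators. -/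
noncomputable def bigHecke (N : ℕ) [NeZero N] :
    Subalgebra (integralClosure ℤ ℂ) (Module.End ℂ (CuspForm (Gamma0 N) 2)) :=
  Algebra.adjoin _ (CuspForm.heckeGenerators N 2 ∅)

instance bigHecke.instIsMulCommutative (N : ℕ) [NeZero N] : IsMulCommutative (bigHecke N) :=
  Algebra.isMulCommutative_adjoin _ fun _ hT _ hT' => CuspForm.commute_of_mem_heckeGenerators hT hT'

open scoped IsMulCommutative in
noncomputable instance bigHecke.instCommRing (N : ℕ) [NeZero N] : CommRing (bigHecke N) :=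
  inferInstance

/-- All `q`-coefficients lie in the ideal `I` of the ring of algebraic integers. -/
def CoeffsIn (I : Ideal (integralClosure ℤ ℂ)) (g : CuspForm (Gamma0 N) 2) : Prop :=
  ∀ n : ℕ, ∃ c ∈ I, (c : ℂ) = qCoeff g n

theorem CoeffsIn.add {I : Ideal (integralClosure ℤ ℂ)} {g g' : CuspForm (Gamma0 N) 2}
    (hg : CoeffsIn I g) (hg' : CoeffsIn I g') : CoeffsIn I (g + g') := by
  intro n
  obtain ⟨c, hc, hc'⟩ := hg n
  obtain ⟨d, hd, hd'⟩ := hg' n
  refine ⟨c + d, I.add_mem hc hd, ?_⟩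
  rw [qCoeff_add, ← hc', ← hd']
  rfl

theorem CoeffsIn.smul {I : Ideal (integralClosure ℤ ℂ)} {g : CuspForm (Gamma0 N) 2}
    (hg : CoeffsIn I g) (r : integralClosure ℤ ℂ) : CoeffsIn I ((r : ℂ) • g) := by
  intro n
  obtain ⟨c, hc, hc'⟩ := hg n
  refine ⟨r * c, I.mul_mem_left r hc, ?_⟩
  rw [qCoeff_smul, ← hc']
  rfl

theorem CoeffsIn.zero (I : Ideal (integralClosure ℤ ℂ)) :
    CoeffsIn I (0 : CuspForm (Gamma0 N) 2) := by
  intro n
  refine ⟨0, I.zero_mem, ?_⟩
  have := qCoeff_smul (0 : ℂ) (0 : CuspForm (Gamma0 N) 2) n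
  rw [zero_smul, zero_mul] at this
  rw [this]
  rfl

theorem CoeffsIn.heckeTLin {I : Ideal (integralClosure ℤ ℂ)} {g : CuspForm (Gamma0 N) 2}
    (hg : CoeffsIn I g) {p : ℕ} (hp : p.Prime) (hpN : ¬ p ∣ N) :
    CoeffsIn I (CuspForm.heckeTLin 2 hp hpN g) := by
  intro n
  rw [qCoeff_heckeTLin]
  obtain ⟨c, hc, hc'⟩ := hg (n * p)
  obtain ⟨d, hd, hd'⟩ := hg (n / p)
  by_cases hdvd : p ∣ n
  · refine ⟨c + (p : integralClosure ℤ ℂ) * d, I.add_mem hc (I.mul_mem_left _ hd), ?_⟩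
    rw [if_pos hdvd, ← hc', ← hd']
    norm_num
  · refine ⟨c, hc, ?_⟩
    rw [if_neg hdvd, ← hc', add_zero]

theorem CoeffsIn.heckeULin [NeZero N] {I : Ideal (integralClosure ℤ ℂ)} {g : CuspForm (Gamma0 N) 2}
    (hg : CoeffsIn I g) {p : ℕ} (hp : p.Prime) (hpN : p ∣ N) :
    CoeffsIn I (CuspForm.heckeULin 2 hpN g) := by
  intro n
  rw [qCoeff_heckeULin hp.ne_zero]
  exact hg (n * p)

theorem algebraMap_apply_eq_smul (r : integralClosure ℤ ℂ) (g : CuspForm (Gamma0 N) 2) :
    (algebraMap (integralClosure ℤ ℂ) (Module.End ℂ (CuspForm (Gamma0 N) 2)) r) g = (r : ℂ) • g := by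
  rfl

theorem CoeffsIn.of_mem_bigHecke [NeZero N] {I : Ideal (integralClosure ℤ ℂ)}
    {t : Module.End ℂ (CuspForm (Gamma0 N) 2)} (ht : t ∈ bigHecke N) :
    ∀ g : CuspForm (Gamma0 N) 2, CoeffsIn I g → CoeffsIn I (t g) := by
  induction ht using Algebra.adjoin_induction with
  | mem x hx =>
    intro g hg
    rcases hx with ⟨ℓ, hℓ, hℓN, -, rfl⟩ | ⟨q, hqN, hq, -, rfl⟩
    · exact hg.heckeTLin hℓ hℓN
    · exact hg.heckeULin hq hqN
  | algebraMap r =>
    intro g hg
    rw [algebraMap_apply_eq_smul]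
    exact hg.smul r
  | add x y _ _ hx hy =>
    intro g hg
    rw [LinearMap.add_apply]
    exact (hx g hg).add (hy g hg)
  | mul x y _ _ hx hy =>
    intro g hg
    rw [Module.End.mul_apply]
    exact hx _ (hy g hg)

/-- The ideal of operators sending `f` into the forms with coefficients in `I`. -/
def congruenceIdeal [NeZero N] (I : Ideal (integralClosure ℤ ℂ)) (f : CuspForm (Gamma0 N) 2) :
    Ideal (bigHecke N) where
  carrier := {t | CoeffsIn I ((t : Module.End ℂ (CuspForm (Gamma0 N) 2)) f)}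
  add_mem' := by
    intro a b ha hb
    exact CoeffsIn.add ha hb
  zero_mem' := CoeffsIn.zero I
  smul_mem' := by
    intro c x hx
    exact CoeffsIn.of_mem_bigHecke c.2 _ hx

theorem mem_congruenceIdeal [NeZero N] {I : Ideal (integralClosure ℤ ℂ)}
    {f : CuspForm (Gamma0 N) 2} {t : bigHecke N} :
    t ∈ congruenceIdeal I f ↔ CoeffsIn I ((t : Module.End ℂ (CuspForm (Gamma0 N) 2)) f) :=
  Iff.rfl

end Fermat.Agent.S49
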