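import Mathlib

set_option autoImplicit false

namespace Fermat.Agent.S49

open Module

section Abstract

variable {K V A : Type*} [Field K] [AddCommGroup V] [Module K V]
  [FiniteDimensional K V] [CommRing A]

/-- The family of nonzero stable subspaces whose annihilator lies in `M`. -/
def Good (ρ : A →+* Module.End K V) (M : Ideal A) (W : Submodule K V) : Prop :=
  W ≠ ⊥ ∧ (∀ t : A, ∀ w ∈ W, ρ t w ∈ W) ∧ (∀ t : A, (∀ w ∈ W, ρ t w = 0) → t ∈ M)

theorem exists_minimal_good (ρ : A →+* Module.End K V) (M : Ideal A)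
    (h : ∃ W, Good ρ M W) :
    ∃ W, Good ρ M W ∧ ∀ W', Good ρ M W' → W' ≤ W → W' = W := by
  classical
  have hne : ∃ n : ℕ, ∃ W, Good ρ M W ∧ finrank K W = n := by
    obtain ⟨W, hW⟩ := h
    exact ⟨_, W, hW, rfl⟩
  obtain ⟨W, hW, hn⟩ := Nat.find_spec hne
  refine ⟨W, hW, fun W' hW' hle => ?_⟩
  apply Submodule.eq_of_le_of_finrank_le hle
  rw [hn]
  exact Nat.find_min' hne ⟨W', hW', rfl⟩

theorem injOn_of_notMem {ρ : A →+* Module.End K V} {M : Ideal A} [M.IsPrime]
    {W : Submodule K V} (hW : Good ρ M W)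
    (hmin : ∀ W', Good ρ M W' → W' ≤ W → W' = W) {u : A} (hu : u ∉ M) :
    ∀ w ∈ W, ρ u w = 0 → w = 0 := by
  obtain ⟨hW0, hWs, hWa⟩ := hW
  have hle : W.map (ρ u) ≤ W := by
    rintro _ ⟨w, hw, rfl⟩
    exact hWs u w hw
  have hgood : Good ρ M (W.map (ρ u)) := by
    refine ⟨?_, ?_, ?_⟩
    · intro h0
      apply hu
      apply hWa
      intro w hw
      have : ρ u w ∈ W.map (ρ u) := Submodule.mem_map_of_mem hw
      rw [h0] at this
      simpa using this
    · rintro t _ ⟨w, hw, rfl⟩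
      refine ⟨ρ t w, hWs t w hw, ?_⟩
      rw [← Module.End.mul_apply, ← Module.End.mul_apply, ← map_mul, ← map_mul, mul_comm]
    · intro t ht
      have : t * u ∈ M := by
        apply hWa
        intro w hw
        rw [map_mul, Module.End.mul_apply]
        exact ht _ (Submodule.mem_map_of_mem hw)
      exact (Ideal.IsPrime.mem_or_mem inferInstance this).resolve_right hu
  have heq := hmin _ hgood hle
  -- the restriction of `ρ u` to `W` is surjective, hence injective
  let r : W →ₗ[K] W := (ρ u).restrict (fun w hw => hWs u w hw)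
  have hsurj : Function.Surjective r := by
    rintro ⟨y, hy⟩
    rw [← heq] at hy
    obtain ⟨w, hw, rfl⟩ := hy
    exact ⟨⟨w, hw⟩, rfl⟩
  have hinj : Function.Injective r := LinearMap.injective_iff_surjective.mpr hsurj
  intro w hw h0
  have : r ⟨w, hw⟩ = r 0 := by
    apply Subtype.ext
    simpa [r] using h0
  simpa using congrArg Subtype.val (hinj this)

/-- Abstract lifting lemma. -/
theorem exists_common_eigenvector [IsAlgClosed K] {O : Type*} [CommRing O] (j : O →+* K)
    (ρ : A →+* Module.End K V) (ι : O →+* A)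
    (hι : ∀ c : O, ρ (ι c) = (j c) • (1 : Module.End K V))
    (M : Ideal A) [M.IsPrime] (hker : ∀ t, ρ t = 0 → t ∈ M) :
    ∃ g : V, g ≠ 0 ∧ ∀ t : A, (∀ μ : K, (ρ t).HasEigenvalue μ → ∃ c : O, j c = μ) →
      ∃ μ : O, ρ t g = (j μ) • g ∧ t - ι μ ∈ M := by
  have htop : Good ρ M ⊤ := by
    refine ⟨?_, fun _ _ _ => Submodule.mem_top, ?_⟩
    · intro h0
      have : (1 : A) ∈ M := by
        apply hker
        ext v
        have hv : v ∈ (⊤ : Submodule K V) := Submodule.mem_top
        rw [h0] at hv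
        have hv0 : v = 0 := by simpa using hv
        simp [hv0]
      exact (Ideal.ne_top_iff_one M).mp (Ideal.IsPrime.ne_top inferInstance) this
    · intro t ht
      apply hker
      ext v
      simpa using ht v Submodule.mem_top
  obtain ⟨W, hW, hmin⟩ := exists_minimal_good ρ M ⟨⊤, htop⟩
  have hinj := fun {u : A} (hu : u ∉ M) => injOn_of_notMem hW hmin hu
  obtain ⟨hW0, hWs, hWa⟩ := hW
  obtain ⟨g, hgW, hg0⟩ := Submodule.exists_mem_ne_zero_of_ne_bot hW0
  refine ⟨g, hg0, fun t ht => ?_⟩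
  have : Nontrivial W := Submodule.nontrivial_iff_ne_bot.mpr hW0
  let r : Module.End K W := (ρ t).restrict (fun w hw => hWs t w hw)
  obtain ⟨μ, hμ⟩ := Module.End.exists_eigenvalue r
  obtain ⟨w, hw⟩ := hμ.exists_hasEigenvector
  have hw1 : ρ t (w : V) = μ • (w : V) := by
    have := congrArg Subtype.val hw.apply_eq_smul
    simpa [r] using this
  have hw0 : (w : V) ≠ 0 := by
    intro h
    exact hw.2 (Subtype.ext h)
  obtain ⟨c, rfl⟩ : ∃ c : O, j c = μ := by
    apply ht
    apply Module.End.hasEigenvalue_of_hasEigenvector (x := (w : V))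
    exact ⟨Module.End.mem_eigenspace_iff.mpr hw1, hw0⟩
  set τ : A := t - ι c with hτ
  have hτapp : ∀ v : V, ρ τ v = ρ t v - j c • v := by
    intro v
    rw [hτ, map_sub, hι]
    simp
  have hτM : τ ∈ M := by
    by_contra hcon
    apply hw0
    apply hinj hcon _ w.2
    rw [hτapp, hw1, sub_self]
  -- the kernel of `τ` in `W`
  have hmem : ∀ v : V, v ∈ W ⊓ LinearMap.ker (ρ τ) ↔ v ∈ W ∧ ρ τ v = 0 := by
    intro v
    rw [Submodule.mem_inf, LinearMap.mem_ker]
  have hwmem : (w : V) ∈ W ⊓ LinearMap.ker (ρ τ) := by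
    rw [hmem]
    refine ⟨w.2, ?_⟩
    rw [hτapp, hw1, sub_self]
  have hgood : Good ρ M (W ⊓ LinearMap.ker (ρ τ)) := by
    refine ⟨?_, ?_, ?_⟩
    · intro h0
      have := hwmem
      rw [h0] at this
      exact hw0 (by simpa using this)
    · intro s v hv
      rw [hmem] at hv ⊢
      obtain ⟨hvW, hvk⟩ := hv
      refine ⟨hWs s v hvW, ?_⟩
      rw [← Module.End.mul_apply, ← map_mul, mul_comm, map_mul, Module.End.mul_apply, hvk, map_zero]
    · intro s hs
      by_contra hcon
      apply hw0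
      apply hinj hcon _ w.2
      exact hs _ hwmem
  have heq := hmin _ hgood inf_le_left
  refine ⟨c, ?_, hτM⟩
  have : g ∈ W ⊓ LinearMap.ker (ρ τ) := by rw [heq]; exact hgW
  have h2 := ((hmem g).mp this).2
  rw [hτapp, sub_eq_zero] at h2
  exact h2

end Abstract

end Fermat.Agent.S49
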