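import Mathlib
import Fermat.Prelude.Def_CuspForm_IntegralLattice

set_option autoImplicit false

namespace Fermat.Agent.S49

open EisensteinWeightOne

theorem e1Chi3In_int_eq :
    e1Chi3In ℤ = 1 + PowerSeries.C (3 : ℤ) *
      PowerSeries.mk (fun n => if n = 0 then 0 else 2 * sigmaChi n) := by
  ext n
  unfold e1Chi3In e1Chi3
  simp only [PowerSeries.coeff_map, PowerSeries.coeff_mk, map_add, PowerSeries.coeff_one,
    PowerSeries.coeff_C_mul, Int.coe_castRingHom, Int.cast_id]
  by_cases hn : n = 0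
  · simp [hn]
  · simp only [hn, if_false]
    ring

theorem three_dvd_bridgeProduct_coeff_sub (a : ℕ → ℤ) (n : ℕ) :
    (3 : ℤ) ∣ (bridgeProduct a).coeff n - a n := by
  unfold bridgeProduct
  rw [e1Chi3In_int_eq, mul_add, mul_one, map_add, PowerSeries.coeff_mk, mul_left_comm,
    PowerSeries.coeff_C_mul]
  rw [add_sub_cancel_left]
  exact Dvd.intro _ rfl

theorem three_dvd_natCast_sub_chiNegThree (ℓ : ℕ) : (3 : ℤ) ∣ (ℓ : ℤ) - chiNegThree ℓ := by
  unfold chiNegThree
  have h3 : ℓ % 3 < 3 := Nat.mod_lt _ (by norm_num)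
  split_ifs with h1 h2 <;> omega

end Fermat.Agent.S49
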